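/-
S29lib / Dvr (helper5).  Adic completeness lemmas:
* a module with a finite basis over an `I`-adically precomplete ring is `I`-adically precomplete;
* precompleteness passes between ideals with comparable powers (`J ^ e ≤ I ≤ J`).
-/
import Mathlib

set_option autoImplicit false
set_option linter.unusedSectionVars false

namespace Fermat.Agent.S29lib.Dvr

open Submodule

section Basis

variable {R M ι : Type*} [CommRing R] [AddCommGroup M] [Module R M] [Fintype ι]

/-- coordinates of an element of `J • ⊤` lie in `J` -/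
theorem repr_mem_of_mem_smul_top (b : Module.Basis ι R M) (J : Ideal R) {x : M}
    (hx : x ∈ J • (⊤ : Submodule R M)) (i : ι) : b.repr x i ∈ J := by
  refine Submodule.smul_induction_on (p := fun x => b.repr x i ∈ J) hx ?_ ?_
  · intro a ha y _
    rw [map_smul, Finsupp.smul_apply, smul_eq_mul]
    exact J.mul_mem_right _ ha
  · intro x y hx hy
    rw [map_add, Finsupp.add_apply]
    exact J.add_mem hx hy

/-- an element all of whose coordinates lie in `J` is in `J • ⊤` -/
theorem mem_smul_top_of_repr_mem (b : Module.Basis ι R M) (J : Ideal R) {x : M}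
    (hx : ∀ i, b.repr x i ∈ J) : x ∈ J • (⊤ : Submodule R M) := by
  rw [← b.sum_repr x]
  exact Submodule.sum_mem _ fun i _ => Submodule.smul_mem_smul (hx i) Submodule.mem_top

/-- **A module with a finite basis over a precomplete ring is precomplete.** -/
theorem isPrecomplete_of_basis (b : Module.Basis ι R M) (I : Ideal R) [IsPrecomplete I R] :
    IsPrecomplete I M := by
  refine ⟨fun {f} hf => ?_⟩
  -- the coordinate sequences are Cauchy
  have hcoord : ∀ i : ι, ∃ c : R, ∀ n, b.repr (f n) i ≡ c [SMOD (I ^ n • ⊤ : Submodule R R)] := by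
    intro i
    refine IsPrecomplete.prec ‹IsPrecomplete I R› (f := fun n => b.repr (f n) i) ?_
    intro m n hmn
    rw [SModEq.sub_mem, smul_eq_mul, Ideal.mul_top]
    have h1 : f m - f n ∈ (I ^ m • ⊤ : Submodule R M) := (SModEq.sub_mem).mp (hf hmn)
    have h2 := repr_mem_of_mem_smul_top b (I ^ m) h1 i
    rwa [map_sub, Finsupp.sub_apply] at h2
  choose c hc using hcoord
  refine ⟨∑ i, c i • b i, fun n => ?_⟩
  rw [SModEq.sub_mem]
  apply mem_smul_top_of_repr_mem b
  intro i
  have h1 := (SModEq.sub_mem).mp (hc i n)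
  rw [smul_eq_mul, Ideal.mul_top] at h1
  have h2 : b.repr (f n - ∑ j, c j • b j) i = b.repr (f n) i - c i := by
    rw [map_sub, Finsupp.sub_apply, map_sum, Finsupp.finsetSum_apply]
    congr 1
    rw [Finset.sum_eq_single i]
    · simp
    · intro j _ hji
      simp [hji]
    · intro h; exact absurd (Finset.mem_univ i) h
  rw [h2]
  exact h1

end Basis

section Compare

variable {R : Type*} [CommRing R] (M : Type*) [AddCommGroup M] [Module R M]

/-- **Precompleteness for ideals with comparable powers.** -/
theorem isPrecomplete_of_pow_le {I J : Ideal R} {e : ℕ} (he : 0 < e) (h1 : J ^ e ≤ I)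
    (h2 : I ≤ J) [IsPrecomplete I M] : IsPrecomplete J M := by
  refine ⟨fun {f} hf => ?_⟩
  have hle : ∀ k : ℕ, k ≤ e * k := fun k => Nat.le_mul_of_pos_left k he
  have hpow : ∀ k : ℕ, (J ^ (e * k) • ⊤ : Submodule R M) ≤ I ^ k • ⊤ := by
    intro k
    rw [pow_mul]
    exact Submodule.smul_mono_left (Ideal.pow_right_mono h1 k)
  have hIJ : ∀ k : ℕ, (I ^ k • ⊤ : Submodule R M) ≤ J ^ k • ⊤ := fun k =>
    Submodule.smul_mono_left (Ideal.pow_right_mono h2 k)
  -- the subsequence `f (e k)` is `I`-Cauchy
  obtain ⟨L, hL⟩ := IsPrecomplete.prec ‹IsPrecomplete I M› (f := fun k => f (e * k)) (by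
    intro m n hmn
    have h := hf (Nat.mul_le_mul_left e hmn)
    rw [SModEq.sub_mem] at h ⊢
    exact hpow m h)
  refine ⟨L, fun n => ?_⟩
  have h3 : f n ≡ f (e * n) [SMOD (J ^ n • ⊤ : Submodule R M)] := hf (hle n)
  have h4 : f (e * n) ≡ L [SMOD (J ^ n • ⊤ : Submodule R M)] := by
    have := hL n
    rw [SModEq.sub_mem] at this ⊢
    exact hIJ n this
  exact h3.trans h4

end Compare

end Fermat.Agent.S29lib.Dvr
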