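/-
S29lib / Dvr (helper5).  A domain `B`, module-finite over a local ring `A` and complete for the
ideal `I = 𝔪_A B`, with `B ⧸ I` finite, is a LOCAL ring: two distinct maximal ideals would give a
nontrivial idempotent modulo `I` (a power of an element of `𝔮₁` congruent to `1` modulo `𝔮₂`), which
lifts to a nontrivial idempotent of `B` by Hensel's lemma for `X² - X`.
-/
import Mathlib

set_option autoImplicit false

namespace Fermat.Agent.S29lib.Dvr

open Polynomial

/-- in a finite commutative monoid every element has an idempotent power -/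
theorem exists_pow_isIdempotentElem {M : Type*} [Monoid M] [Finite M] (x : M) :
    ∃ m : ℕ, 0 < m ∧ IsIdempotentElem (x ^ m) := by
  obtain ⟨a, b, hab, h⟩ := Finite.exists_ne_map_eq_of_infinite (fun n : ℕ => x ^ (n + 1))
  wlog hlt : a < b generalizing a b
  · exact this b a hab.symm h.symm (lt_of_le_of_ne (not_lt.mp hlt) hab.symm)
  -- `x ^ (a+1) = x ^ (a+1+d)`, `d = b - a > 0`
  obtain ⟨d, rfl⟩ : ∃ d, b = a + d := ⟨b - a, by omega⟩
  have hd : 0 < d := by omega
  have h' : x ^ (a + 1) = x ^ (a + 1 + d) := by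
    have : a + d + 1 = a + 1 + d := by ring
    simpa [this] using h
  -- hence `x ^ n = x ^ (n + k d)` for `n ≥ a + 1`
  have step : ∀ n, a + 1 ≤ n → x ^ n = x ^ (n + d) := by
    intro n hn
    obtain ⟨c, rfl⟩ : ∃ c, n = a + 1 + c := ⟨n - (a + 1), by omega⟩
    rw [pow_add, h', ← pow_add]
    congr 1
    ring
  have steps : ∀ k n, a + 1 ≤ n → x ^ n = x ^ (n + k * d) := by
    intro k
    induction k with
    | zero => intro n _; simp
    | succ k ih =>
      intro n hn
      rw [ih n hn, step (n + k * d) (by omega)]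
      congr 1
      ring
  refine ⟨(a + 1) * d, Nat.mul_pos (Nat.succ_pos a) hd, ?_⟩
  have hge : a + 1 ≤ (a + 1) * d := Nat.le_mul_of_pos_right _ hd
  show x ^ ((a + 1) * d) * x ^ ((a + 1) * d) = x ^ ((a + 1) * d)
  rw [← pow_add]
  exact (steps (a + 1) _ hge).symm

variable {B : Type*} [CommRing B] [IsDomain B]

/-- lifting an idempotent modulo a Henselian ideal of a domain: it is `0` or `1` -/
theorem mem_or_one_sub_mem_of_idempotent_mod (I : Ideal B) [HenselianRing B I] (u : B)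
    (hu : u * u - u ∈ I) : u ∈ I ∨ 1 - u ∈ I := by
  -- Hensel for `X² - X` at `u`
  have hmonic : (X ^ 2 - X : B[X]).Monic := by
    apply monic_X_pow_sub
    rw [degree_X]
    norm_num
  have heval : (X ^ 2 - X : B[X]).eval u ∈ I := by
    simp only [eval_sub, eval_pow, eval_X]
    rw [pow_two]
    exact hu
  have hder : IsUnit (Ideal.Quotient.mk I ((X ^ 2 - X : B[X]).derivative.eval u)) := by
    have h1 : (X ^ 2 - X : B[X]).derivative.eval u = 2 * u - 1 := by
      have h2 : (C (2 : B)).eval u = 2 := eval_C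
      simp only [derivative_sub, derivative_X_pow, derivative_X, eval_sub, eval_mul, eval_pow,
        eval_X, eval_one, Nat.cast_ofNat, h2]
      ring
    rw [h1]
    refine IsUnit.of_mul_eq_one (Ideal.Quotient.mk I (2 * u - 1)) ?_
    rw [← map_mul, ← map_one (Ideal.Quotient.mk I), Ideal.Quotient.eq]
    have : (2 * u - 1) * (2 * u - 1) - 1 = 4 * (u * u - u) := by ring
    rw [this]
    exact I.mul_mem_left _ hu
  obtain ⟨e, he, heu⟩ := HenselianRing.is_henselian (X ^ 2 - X : B[X]) hmonic u heval hder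
  have he2 : e * (e - 1) = 0 := by
    have : (X ^ 2 - X : B[X]).eval e = 0 := he
    simp only [eval_sub, eval_pow, eval_X] at this
    linear_combination this
  rcases mul_eq_zero.mp he2 with h0 | h1
  · left
    rw [h0, zero_sub] at heu
    simpa using I.neg_mem heu
  · right
    have : e = 1 := sub_eq_zero.mp h1
    rw [this] at heu
    exact heu

/-- **Locality.**  A domain which is Henselian along an ideal `I` contained in every maximal ideal,
with `B ⧸ I` finite, is a local ring. -/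
theorem isLocalRing_of_henselian (I : Ideal B) [HenselianRing B I] [Finite (B ⧸ I)]
    (hI : ∀ 𝔮 : Ideal B, 𝔮.IsMaximal → I ≤ 𝔮) : IsLocalRing B := by
  obtain ⟨𝔮₀, h𝔮₀⟩ := Ideal.exists_maximal B
  refine IsLocalRing.of_unique_max_ideal ⟨𝔮₀, h𝔮₀, fun 𝔮 h𝔮 => ?_⟩
  by_contra hne
  -- coprime
  have hsup : 𝔮 ⊔ 𝔮₀ = ⊤ := Ideal.IsMaximal.coprime_of_ne h𝔮 h𝔮₀ hne
  obtain ⟨x, hx, y, hy, hxy⟩ := Submodule.mem_sup.mp ((Ideal.eq_top_iff_one _).mp hsup)
  -- an idempotent power of `x` modulo `I`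
  obtain ⟨m, hm, hidem⟩ := exists_pow_isIdempotentElem (Ideal.Quotient.mk I x)
  have hu : x ^ m * x ^ m - x ^ m ∈ I := by
    rw [← Ideal.Quotient.eq, map_mul, map_pow]
    exact hidem
  rcases mem_or_one_sub_mem_of_idempotent_mod I (x ^ m) hu with h | h
  · -- `x ^ m ∈ I ⊆ 𝔮₀`, so `x ∈ 𝔮₀`, so `1 ∈ 𝔮₀`
    have hx0 : x ∈ 𝔮₀ := h𝔮₀.isPrime.mem_of_pow_mem m (hI 𝔮₀ h𝔮₀ h)
    exact h𝔮₀.ne_top ((Ideal.eq_top_iff_one _).mpr (hxy ▸ 𝔮₀.add_mem hx0 hy))
  · -- `1 - x ^ m ∈ I ⊆ 𝔮`, and `x ^ m ∈ 𝔮`, so `1 ∈ 𝔮`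
    have h1 : 1 - x ^ m ∈ 𝔮 := hI 𝔮 h𝔮 h
    have h2 : x ^ m ∈ 𝔮 := 𝔮.pow_mem_of_mem hx m hm
    have : (1 : B) ∈ 𝔮 := by
      have := 𝔮.add_mem h1 h2
      simpa using this
    exact h𝔮.ne_top ((Ideal.eq_top_iff_one _).mpr this)

end Fermat.Agent.S29lib.Dvr
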