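/-
S29lib / Dvr (helper5).  **Finite extensions of complete discrete valuation rings.**

`A` a complete DVR of characteristic `0` with finite residue field, `K = Frac A`, `L/K` a finite
extension, `B = integralClosure A L`.  Then `B` is a complete DVR with finite residue field,
module-finite over `A`, and `A → B` is an injective local homomorphism.
(The form needed for the ring `𝒪''` of S30.)
-/
import Mathlib
import Fermat.Agent.S29lib.Dvr.Complete
import Fermat.Agent.S29lib.Dvr.Local

set_option autoImplicit false
set_option linter.unusedSectionVars false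
set_option linter.unusedVariables false
set_option linter.style.haveILetI false

noncomputable section

namespace Fermat.Agent.S29lib.Dvr

open IsLocalRing

/-- the ring of integers of `L` -/
abbrev OL (A : Type*) [CommRing A] (L : Type*) [Field L] [Algebra A L] : Subalgebra A L :=
  integralClosure A L

section

variable (A : Type*) [CommRing A] [IsDomain A] [IsDiscreteValuationRing A] [CharZero A]
  (K : Type*) [Field K] [Algebra A K] [IsFractionRing A K]
  (L : Type*) [Field L] [Algebra K L] [Algebra A L] [IsScalarTower A K L] [FiniteDimensional K L]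

include A K L

theorem isSeparable_KL : Algebra.IsSeparable K L :=
  haveI : CharZero K := charZero_of_injective_algebraMap (IsFractionRing.injective A K)
  inferInstance

theorem finite_OL : Module.Finite A (OL A L) :=
  haveI := isSeparable_KL A K L
  IsIntegralClosure.finite A K L (OL A L)

theorem isTorsionFree_AL : Module.IsTorsionFree A L := by
  have hinj : Function.Injective (algebraMap A L) := by
    rw [IsScalarTower.algebraMap_eq A K L]
    exact (algebraMap K L).injective.comp (IsFractionRing.injective A K)
  haveI : FaithfulSMul A L := (faithfulSMul_iff_algebraMap_injective A L).mpr hinj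
  infer_instance

theorem free_OL : Module.Free A (OL A L) := by
  haveI := isSeparable_KL A K L
  haveI := isTorsionFree_AL A K L
  exact IsIntegralClosure.module_free A K L (OL A L)

theorem isDedekindDomain_OL : IsDedekindDomain (OL A L) :=
  haveI := isSeparable_KL A K L
  integralClosure.isDedekindDomain A K L

theorem algebraMap_OL_injective : Function.Injective (algebraMap A (OL A L)) := by
  intro x y h
  have h1 := congrArg (fun t : OL A L => (t : L)) h
  have h2 : algebraMap A L x = algebraMap A L y := h1
  rw [IsScalarTower.algebraMap_apply A K L, IsScalarTower.algebraMap_apply A K L] at h2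
  exact IsFractionRing.injective A K ((algebraMap K L).injective h2)

theorem isIntegral_OL : Algebra.IsIntegral A (OL A L) :=
  IsIntegralClosure.isIntegral_algebra A L

theorem isLocalHom_OL : IsLocalHom (algebraMap A (OL A L)) := by
  haveI := isIntegral_OL A K L
  haveI : FaithfulSMul A (OL A L) :=
    (faithfulSMul_iff_algebraMap_injective A (OL A L)).mpr (algebraMap_OL_injective A K L)
  exact Algebra.IsIntegral.isLocalHom A (OL A L)

theorem not_isField_OL : ¬ IsField (OL A L) := by
  intro h
  haveI := isIntegral_OL A K L
  exact IsDiscreteValuationRing.not_isField A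
    (isField_of_isIntegral_of_isField (algebraMap_OL_injective A K L) h)

/-- `I = 𝔪_A B` -/
abbrev mB : Ideal (OL A L) := (maximalIdeal A).map (algebraMap A (OL A L))

/-- every maximal ideal of `B` contains `𝔪_A B` -/
theorem mB_le_of_isMaximal (𝔮 : Ideal (OL A L)) (h𝔮 : 𝔮.IsMaximal) : mB A L ≤ 𝔮 := by
  haveI := isIntegral_OL A K L
  haveI := h𝔮
  have hmax : (𝔮.comap (algebraMap A (OL A L))).IsMaximal :=
    Ideal.isMaximal_comap_of_isIntegral_of_isMaximal 𝔮
  rw [Ideal.map_le_iff_le_comap, ← IsLocalRing.eq_maximalIdeal hmax]

/-- `B ⧸ 𝔪_A B` is finite -/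
theorem finite_quot_mB [Finite (ResidueField A)] : Finite (OL A L ⧸ mB A L) := by
  classical
  haveI := finite_OL A K L
  haveI := free_OL A K L
  let b := Module.Free.chooseBasis A (OL A L)
  let lift : ResidueField A → A := Function.surjInv (IsLocalRing.residue_surjective (R := A))
  have hlift : ∀ c, IsLocalRing.residue A (lift c) = c :=
    Function.surjInv_eq (IsLocalRing.residue_surjective (R := A))
  let g : (Module.Free.ChooseBasisIndex A (OL A L) → ResidueField A) → (OL A L ⧸ mB A L) :=
    fun c => Ideal.Quotient.mk (mB A L) (∑ i, lift (c i) • b i)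
  refine Finite.of_surjective g fun y => ?_
  obtain ⟨x, rfl⟩ := Ideal.Quotient.mk_surjective y
  refine ⟨fun i => IsLocalRing.residue A (b.repr x i), ?_⟩
  show Ideal.Quotient.mk (mB A L) _ = Ideal.Quotient.mk (mB A L) x
  rw [Ideal.Quotient.eq]
  have key : (∑ i, lift (IsLocalRing.residue A (b.repr x i)) • b i) - x =
      (∑ i, lift (IsLocalRing.residue A (b.repr x i)) • b i) - ∑ i, b.repr x i • b i := by
    rw [b.sum_repr x]
  rw [key, ← Finset.sum_sub_distrib]
  refine Ideal.sum_mem _ fun i _ => ?_
  rw [← sub_smul, Algebra.smul_def]
  refine Ideal.mul_mem_right _ _ (Ideal.mem_map_of_mem _ ?_)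
  rw [← IsLocalRing.residue_eq_zero_iff, map_sub, hlift, sub_self]

variable [IsAdicComplete (maximalIdeal A) A]

/-- `B` is `𝔪_A`-adically complete as an `A`-module -/
theorem isAdicComplete_OL_module : IsAdicComplete (maximalIdeal A) (OL A L) := by
  haveI := finite_OL A K L
  haveI := free_OL A K L
  haveI : IsPrecomplete (maximalIdeal A) (OL A L) :=
    isPrecomplete_of_basis (Module.Free.chooseBasis A (OL A L)) (maximalIdeal A)
  exact { }

/-- `B` is complete for the ideal `𝔪_A B` -/
theorem isAdicComplete_mB : IsAdicComplete (mB A L) (OL A L) := by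
  haveI := isAdicComplete_OL_module A K L
  exact (IsAdicComplete.map_algebraMap_iff (R := A) (S := OL A L) (M := OL A L)
    (I := maximalIdeal A)).mpr inferInstance

variable [Finite (ResidueField A)]

/-- **`B` is local.** -/
theorem isLocalRing_OL : IsLocalRing (OL A L) := by
  haveI := isAdicComplete_mB A K L
  haveI := finite_quot_mB A K L
  exact isLocalRing_of_henselian (mB A L) (mB_le_of_isMaximal A K L)

/-- **`B` is a discrete valuation ring.** -/
theorem isDVR_OL : IsDiscreteValuationRing (OL A L) := by
  haveI := isLocalRing_OL A K L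
  haveI := isDedekindDomain_OL A K L
  have h := (IsDiscreteValuationRing.TFAE (OL A L) (not_isField_OL A K L)).out 0 2
  exact h.mpr (isDedekindDomain_OL A K L)

/-- **`B` is complete for its maximal ideal.** -/
theorem isAdicComplete_OL :
    haveI := isLocalRing_OL A K L
    IsAdicComplete (maximalIdeal (OL A L)) (OL A L) := by
  haveI := isLocalRing_OL A K L
  haveI := isDVR_OL A K L
  haveI := isAdicComplete_mB A K L
  haveI : IsNoetherianRing (OL A L) := inferInstance
  -- `𝔪_A B ≤ 𝔪_B`
  have h2 : mB A L ≤ maximalIdeal (OL A L) :=
    mB_le_of_isMaximal A K L _ (IsLocalRing.maximalIdeal.isMaximal _)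
  -- `𝔪_A B ≠ ⊥`
  have hne : mB A L ≠ ⊥ := by
    intro h0
    obtain ⟨ϖ, hϖ⟩ := IsDiscreteValuationRing.exists_irreducible A
    have hmem : algebraMap A (OL A L) ϖ ∈ mB A L :=
      Ideal.mem_map_of_mem _ ((IsDiscreteValuationRing.irreducible_iff_uniformizer ϖ).mp hϖ ▸
        Ideal.mem_span_singleton_self ϖ)
    rw [h0, Ideal.mem_bot] at hmem
    have : ϖ = 0 := algebraMap_OL_injective A K L (by rw [hmem, map_zero])
    exact hϖ.ne_zero this
  -- `𝔪_A B = 𝔪_B ^ e`
  have htfae := (IsDiscreteValuationRing.TFAE (OL A L) (not_isField_OL A K L)).out 0 6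
  obtain ⟨e, he⟩ := htfae.mp (isDVR_OL A K L) (mB A L) hne
  have hepos : 0 < e := by
    rcases Nat.eq_zero_or_pos e with h0 | h0
    · exfalso
      rw [h0, pow_zero, Ideal.one_eq_top] at he
      rw [he] at h2
      exact (IsLocalRing.maximalIdeal.isMaximal (OL A L)).ne_top (top_le_iff.mp h2)
    · exact h0
  haveI : IsPrecomplete (maximalIdeal (OL A L)) (OL A L) :=
    isPrecomplete_of_pow_le (OL A L) hepos he.symm.le h2
  exact { }

/-- **the residue field of `B` is finite** -/
theorem finite_residueField_OL :
    haveI := isLocalRing_OL A K L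
    Finite (ResidueField (OL A L)) := by
  haveI := isLocalRing_OL A K L
  haveI := isLocalHom_OL A K L
  haveI := finite_OL A K L
  exact IsLocalRing.ResidueField.finite_of_finite (R := A) (S := OL A L) inferInstance

theorem charZero_OL : CharZero (OL A L) :=
  charZero_of_injective_algebraMap (algebraMap_OL_injective A K L)

end

/-- **Finite extensions of complete DVRs**, packaged in the form of S30: for a complete DVR `A` of
characteristic `0` with finite residue field and a finite extension `L` of `K = Frac A`, the ring
`B = integralClosure A L` has all the structure S30 asks of `𝒪''`. -/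
theorem exists_dvr_structure (A : Type*) [CommRing A] [IsDomain A] [IsDiscreteValuationRing A]
    [CharZero A] [IsAdicComplete (maximalIdeal A) A] [Finite (ResidueField A)]
    (K : Type*) [Field K] [Algebra A K] [IsFractionRing A K]
    (L : Type*) [Field L] [Algebra K L] [Algebra A L] [IsScalarTower A K L]
    [FiniteDimensional K L] :
    ∃ (_ : IsDomain (OL A L)) (_ : IsDiscreteValuationRing (OL A L))
      (_ : IsAdicComplete (maximalIdeal (OL A L)) (OL A L))
      (_ : Finite (ResidueField (OL A L))) (_ : CharZero (OL A L))
      (_ : Module.Finite A (OL A L)) (_ : IsLocalHom (algebraMap A (OL A L))),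
      Function.Injective (algebraMap A (OL A L)) :=
  ⟨inferInstance, isDVR_OL A K L, isAdicComplete_OL A K L, finite_residueField_OL A K L,
    charZero_OL A K L, finite_OL A K L, isLocalHom_OL A K L, algebraMap_OL_injective A K L⟩

end Fermat.Agent.S29lib.Dvr
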